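import Fermat.Agent.TwoAdic.Contracts.Defs

/-!
# The pieces of the two-adic route, as propositions

Owners: P1 `SwitchExists`, `ResidualIrreducible`, `PlacesExist`; P5 `AuxPrimesExist`;
P6 `DihedralBound`; P2–P4 `NewSystemCount`; P7 `SystemPoints`, `CurvePoint`; P8 `LimitModular`.
-/

set_option autoImplicit false

noncomputable section

namespace Fermat.Agent.TwoAdic

/-- P1: the switch, at a curve multiplicative at `2`. -/
def SwitchExists : Prop :=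
  ∀ W : WeierstrassCurve ℤ, W.Δ ≠ 0 → W.IsSemistableModel → (2 : ℤ) ∣ W.Δ →
    W.ModRepIsIrreducible 3 →
    ∃ V : WeierstrassCurve ℤ, IsTresModel V ∧ (W.IsGoodPrimeFor 3 → V.IsGoodPrimeFor 3) ∧
      ∀ ℓ : ℕ, ℓ.Prime → W.IsGoodPrimeFor ℓ → V.IsGoodPrimeFor ℓ → ℓ ≠ 3 →
        (3 : ℤ) ∣ (V.apOfModel ℓ - W.apOfModel ℓ)

/-- P1: `V[2]` is absolutely irreducible. -/
def ResidualIrreducible : Prop :=
  ∀ (V : WeierstrassCurve ℤ) (hV : IsTresModel V),
    (residualTwo V hV.delta_ne_zero).IsAbsolutelyIrreducible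

/-- P1: places and Frobenius elements acting residually by transvections. -/
def PlacesExist : Prop :=
  ∀ (V : WeierstrassCurve ℤ) (hV : IsTresModel V) (n : ℕ) (Q : Finset ℕ), 2 ≤ n →
    IsAuxSet V n Q →
    ∃ pl : SignedPlaces (signSet V Q),
      IsPlacesOver pl ∧ IsResidualSigned (residualTwo V hV.delta_ne_zero) pl

/-- P5: auxiliary primes killing the Selmer group, boundedly many. -/
def AuxPrimesExist : Prop :=
  ∀ V : WeierstrassCurve ℤ, IsTresModel V → ∃ B : ℕ, ∀ (n : ℕ), 2 ≤ n → ∀ S₀ : Finset ℕ,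
    ∃ Q : Finset ℕ, IsAuxSet V n Q ∧ (∀ q ∈ Q, q ∉ S₀) ∧ Q.card ≤ B ∧ SelmerTrivial V Q

/-- P6: the reduction modulo `2` of the signed-line ring has at most `h₂ · 2 ^ |Q|` generators. -/
def DihedralBound : Prop :=
  ∀ (V : WeierstrassCurve ℤ) (hV : IsTresModel V) (K : Type) [Field K] [NumberField K],
    IsDiscField V K → ∀ (n : ℕ) (Q : Finset ℕ), 2 ≤ n → IsAuxSet V n Q → SelmerTrivial V Q →
    ∀ pl : SignedPlaces (signSet V Q), IsPlacesOver pl →
      IsResidualSigned (residualTwo V hV.delta_ne_zero) pl →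
      ∀ D : SignedRingData (residualTwo V hV.delta_ne_zero) pl,
        ∃ b : Fin (rankBound K Q) → D.R, ∀ x : D.R, ∃ c : Fin (rankBound K Q) → ℤ_[2],
          x - ∑ i, c i • b i ∈ Ideal.span {(2 : D.R)}

/-- P2–P4: at least `h₂ · 2 ^ |Q|` newform systems of level exactly `2 m ∏ Q`. -/
def NewSystemCount : Prop :=
  ∀ V : WeierstrassCurve ℤ, IsTresModel V → ∀ (K : Type) [Field K] [NumberField K],
    IsDiscField V K → ∀ (n : ℕ) (Q : Finset ℕ), 2 ≤ n → IsAuxSet V n Q →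
    ∀ 𝔪 : Ideal (integralClosure ℤ ℂ), 𝔪.IsMaximal → (2 : integralClosure ℤ ℂ) ∈ 𝔪 →
      rankBound K Q ≤ (newSystems V 𝔪 (auxLevel V Q)).ncard

/-- P7: the systems are points of the signed-line ring, compatibly with one embedding. -/
def SystemPoints : Prop :=
  ∀ (V : WeierstrassCurve ℤ) (hV : IsTresModel V) (n : ℕ) (Q : Finset ℕ), 2 ≤ n →
    IsAuxSet V n Q →
    ∀ 𝔪 : Ideal (integralClosure ℤ ℂ), 𝔪.IsMaximal → (2 : integralClosure ℤ ℂ) ∈ 𝔪 →
    ∀ pl : SignedPlaces (signSet V Q), IsPlacesOver pl →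
      IsResidualSigned (residualTwo V hV.delta_ne_zero) pl →
      ∀ D : SignedRingData (residualTwo V hV.delta_ne_zero) pl,
        ∃ ι : integralClosure ℤ ℂ →+* PadicAlgCl 2, Function.Injective ι ∧
          ∀ a ∈ newSystems V 𝔪 (auxLevel V Q), ∃ φ : D.R →ₐ[ℤ_[2]] PadicAlgCl 2,
            ∀ (ℓ : HeckeIndex (auxLevel V Q)) (A : ValuationSubring (AlgebraicClosure ℚ)),
              A.LiesOverPrime (ℓ.1 : ℕ) →
              ∀ σ : AlgebraicClosure ℚ ≃ₐ[ℚ] AlgebraicClosure ℚ, A.IsFrobeniusAt σ (ℓ.1 : ℕ) →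
                ∃ b : integralClosure ℤ ℂ, (b : ℂ) = a ℓ ∧ φ (D.ρ.trace σ) = ι b

/-- P7: `V` modulo `2 ^ n` is a point of the signed-line ring. -/
def CurvePoint : Prop :=
  ∀ (V : WeierstrassCurve ℤ) (hV : IsTresModel V) (n : ℕ) (Q : Finset ℕ), 2 ≤ n →
    IsAuxSet V n Q →
    ∀ pl : SignedPlaces (signSet V Q), IsPlacesOver pl →
      IsResidualSigned (residualTwo V hV.delta_ne_zero) pl →
      ∀ D : SignedRingData (residualTwo V hV.delta_ne_zero) pl,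
        ∃ φ : D.R →+* ZMod (2 ^ n),
          ∀ (ℓ : HeckeIndex (auxLevel V Q)) (A : ValuationSubring (AlgebraicClosure ℚ)),
            A.LiesOverPrime (ℓ.1 : ℕ) →
            ∀ σ : AlgebraicClosure ℚ ≃ₐ[ℚ] AlgebraicClosure ℚ, A.IsFrobeniusAt σ (ℓ.1 : ℕ) →
              φ (D.ρ.trace σ) = ((V.apOfModel (ℓ.1 : ℕ) : ℤ) : ZMod (2 ^ n))

/-- The conclusion of the two-adic argument for `V`. -/
def IsModularSquarefree (V : WeierstrassCurve ℤ) : Prop :=
  ∃ M : ℕ, 0 < M ∧ Squarefree M ∧ (∀ q : ℕ, q.Prime → (q : ℤ) ∣ V.Δ → q ∣ M) ∧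
    (V.IsGoodPrimeFor 3 → ¬ 3 ∣ M) ∧ V.IsResiduallyModularOfLevel 3 M

/-- P8: modularity from eigenforms close to `V` to every precision, with boundedly many auxiliary
primes. -/
def LimitModular : Prop :=
  ∀ V : WeierstrassCurve ℤ, IsTresModel V → ∀ B : ℕ,
    (∀ n : ℕ, 2 ≤ n → ∀ S₀ : Finset ℕ, ∃ (N : ℕ) (Q : Finset ℕ), n ≤ N ∧ IsAuxSet V N Q ∧
      (∀ q ∈ Q, q ∉ S₀) ∧ Q.card ≤ B ∧ HasCloseSystem V n (auxLevel V Q)) →
    IsModularSquarefree V

end Fermat.Agent.TwoAdic
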