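import Fermat.Agent.TwoAdic.Selmer.Defs
import Fermat.Agent.TwoAdic.Universal.Defs
import Fermat.Agent.EC.Tate.Adic
import Fermat.Agent.EC.Tate.Properties
import Fermat.Prelude.Def_CuspForm_Newforms
import Fermat.Prelude.Def_FLTPrelim_ModularRep
import Mathlib.NumberTheory.NumberField.ClassNumber
import Mathlib.NumberTheory.Padics.Complex

/-!
# The shared objects of the two-adic route

`V` is always the switched curve: `IsTresModel V` says that it is semistable, has negative
discriminant of odd valuation at every bad prime, `2` being one of them, and no rational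
two-torsion.  For a finite set `Q` of auxiliary primes, `signSet V Q` is the set of primes at
which deformations carry a signed line and `auxLevel V Q` its product, the level of the newforms.
-/

set_option autoImplicit false

noncomputable section

open CongruenceSubgroup ModularFormClass
open scoped WeierstrassCurve.Affine

namespace Fermat.Agent.TwoAdic

local notation "ℚ̄" => AlgebraicClosure ℚ
local notation "Γℚ" => (AlgebraicClosure ℚ ≃ₐ[ℚ] AlgebraicClosure ℚ)

/-- The output of the switch: the curves handled by the two-adic argument. -/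
structure IsTresModel (V : WeierstrassCurve ℤ) : Prop where
  delta_neg : V.Δ < 0
  semistable : V.IsSemistableModel
  two_dvd : (2 : ℤ) ∣ V.Δ
  odd_val : ∀ q : ℕ, q.Prime → (q : ℤ) ∣ V.Δ → Odd (padicValInt q V.Δ)
  exists_five_le : ∃ q : ℕ, q.Prime ∧ 5 ≤ q ∧ (q : ℤ) ∣ V.Δ
  no_two_torsion :
    ∀ x : ℚ, 4 * x ^ 3 + (V.b₂ : ℚ) * x ^ 2 + 2 * (V.b₄ : ℚ) * x + (V.b₆ : ℚ) ≠ 0

theorem IsTresModel.delta_ne_zero {V : WeierstrassCurve ℤ} (hV : IsTresModel V) : V.Δ ≠ 0 :=
  hV.delta_neg.ne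

/-- The bad primes of `V`. -/
def badPrimes (V : WeierstrassCurve ℤ) : Finset ℕ := V.Δ.natAbs.primeFactors

/-- The bad primes together with the auxiliary ones. -/
def signSet (V : WeierstrassCurve ℤ) (Q : Finset ℕ) : Finset ℕ := badPrimes V ∪ Q

/-- The level `2 m ∏ Q`. -/
def auxLevel (V : WeierstrassCurve ℤ) (Q : Finset ℕ) : ℕ := ∏ p ∈ signSet V Q, p

/-- `q` is a Ramakrishna prime for `V[2 ^ n]`: Frobenius is conjugate to complex conjugation. -/
structure IsAuxPrime (V : WeierstrassCurve ℤ) (n q : ℕ) : Prop where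
  prime : q.Prime
  odd : q ≠ 2
  good : V.IsGoodPrimeFor q
  frob : ∀ A : ValuationSubring ℚ̄, A.LiesOverPrime q → ∀ σ : Γℚ, A.IsFrobeniusAt σ q →
    ∃ g : Γℚ,
      WeierstrassCurve.Affine.Point.galoisRepModuleEnd (K := ℚ̄) ℚ
          (V.map (Int.castRingHom ℚ)) (2 ^ n) σ =
        WeierstrassCurve.Affine.Point.galoisRepModuleEnd (K := ℚ̄) ℚ
          (V.map (Int.castRingHom ℚ)) (2 ^ n) (g * complexConjugation * g⁻¹)

/-- A set of auxiliary primes. -/
structure IsAuxSet (V : WeierstrassCurve ℤ) (n : ℕ) (Q : Finset ℕ) : Prop where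
  nonempty : Q.Nonempty
  aux : ∀ q ∈ Q, IsAuxPrime V n q

/-- `T` consists of the abscissae of the points of order two of `V`. -/
def IsTwoTorsionRoots (V : WeierstrassCurve ℤ) (T : Selmer.CubicRoots) : Prop :=
  ∀ i : Fin 3, 4 * T.root i ^ 3 + (V.b₂ : ℚ̄) * T.root i ^ 2 + 2 * (V.b₄ : ℚ̄) * T.root i +
    (V.b₆ : ℚ̄) = 0

/-- The Selmer group of the tangent space of the signed-line problem is zero: a class unramified
outside `signSet V Q` and in the line at each prime of that set is a coboundary. -/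
def SelmerTrivial (V : WeierstrassCurve ℤ) (Q : Finset ℕ) : Prop :=
  ∀ T : Selmer.CubicRoots, IsTwoTorsionRoots V T →
    ∀ x : Γℚ → Fin 3 → ZMod 2, T.IsCocycle x →
      (∀ v : Nat.Primes, (v : ℕ) ∈ signSet V Q → ∃ r : Fin 3, T.LineAt v r x) →
      (∀ v : Nat.Primes, (v : ℕ) ∉ signSet V Q → Selmer.UnramifiedAt v x) →
      ∃ w : Fin 3 → ZMod 2, ∑ i, w i = 0 ∧ ∀ σ : Γℚ, x σ = T.act σ w - w

/-- The residual representation on `V[2]`. -/
def residualTwo (V : WeierstrassCurve ℤ) (hΔ : V.Δ ≠ 0) :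
    ResidualGaloisRep (IsLocalRing.ResidueField ℤ_[2]) :=
  haveI := EC.isElliptic_map_rat hΔ
  (EC.tateRep (V.map (Int.castRingHom ℚ)) 2).residual

/-- The chosen places lie over their primes and the chosen elements are Frobenius elements. -/
def IsPlacesOver {S : Finset ℕ} (pl : SignedPlaces S) : Prop :=
  ∀ v : S, (pl.place v).LiesOverPrime (v : ℕ) ∧ (pl.place v).IsFrobeniusAt (pl.frob v) (v : ℕ)

/-- A number field `ℚ(√Δ)`. -/
def IsDiscField (V : WeierstrassCurve ℤ) (K : Type) [Field K] [NumberField K] : Prop :=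
  Module.finrank ℚ K = 2 ∧ ∃ s : K, s ^ 2 = (V.Δ : K)

/-- `h₂ · 2 ^ |Q|`. -/
def rankBound (K : Type) [Field K] [NumberField K] (Q : Finset ℕ) : ℕ :=
  2 ^ (padicValNat 2 (NumberField.classNumber K) + Q.card)

/-- The primes not dividing `L`, as indices of Hecke operators. -/
abbrev HeckeIndex (L : ℕ) : Type := {ℓ : Nat.Primes // ¬ (ℓ : ℕ) ∣ L}

/-- The eigen-system of a form at the primes not dividing `L`. -/
def goodSystem (L : ℕ) {L₀ : ℕ} (f : CuspForm (Gamma0 L₀) 2) : HeckeIndex L → ℂ :=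
  fun ℓ => qCoeff f (ℓ.1 : ℕ)

/-- The eigen-systems congruent to `V` modulo `𝔪` of the newforms of level `L` or `L / 2` (they
may be old at `2`, they are new at the odd primes of `L`). -/
def newSystems (V : WeierstrassCurve ℤ) (𝔪 : Ideal (integralClosure ℤ ℂ)) (L : ℕ) :
    Set (HeckeIndex L → ℂ) :=
  {a | ∃ (L₀ : ℕ) (f : CuspForm (Gamma0 L₀) 2), (L₀ = L ∨ 2 * L₀ = L) ∧ f.IsNewform ∧
    a = goodSystem L f ∧
    ∀ ℓ : HeckeIndex L, ∃ b : integralClosure ℤ ℂ, (b : ℂ) = a ℓ ∧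
      b - ((V.apOfModel (ℓ.1 : ℕ) : ℤ) : integralClosure ℤ ℂ) ∈ 𝔪}

/-- An eigenform of level `L` whose system is `2 ^ n`-adically close to that of `V`. -/
def HasCloseSystem (V : WeierstrassCurve ℤ) (n L : ℕ) : Prop :=
  ∃ f : CuspForm (Gamma0 L) 2, f.IsNormalizedEigenform ∧
    ∃ ι : integralClosure ℤ ℂ →+* PadicAlgCl 2, Function.Injective ι ∧
      ∀ ℓ : HeckeIndex L, ∃ b : integralClosure ℤ ℂ, (b : ℂ) = qCoeff f (ℓ.1 : ℕ) ∧
        ‖ι b - (V.apOfModel (ℓ.1 : ℕ) : PadicAlgCl 2)‖ ≤ ((2 : ℝ) ^ n)⁻¹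

end Fermat.Agent.TwoAdic
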